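/-
S16lib / package M2 (lead): the forms entering Serre's trace argument for `ℓ = p`.
Restriction of a level-one form to `Γ₀(p)`, its `W`-slash `V = f∣[k] diag(p,1) = p^{k-1} f(pτ)`,
and the `q`-expansion of `V`.
-/
import Mathlib
import Fermat.Agent.S16lib.Op.Weight2
import Fermat.Prelude.Def_ModularForm_HeckeOperatorForms
import Fermat.Prelude.Thm_UpperHalfPlane_qCoeff_heckeT
import Fermat.Prelude.Thm_CongruenceSubgroup_one_mem_strictPeriods_Gamma0

set_option autoImplicit false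

noncomputable section

namespace Fermat.Agent.S16lib.M2

open scoped MatrixGroups ModularForm
open UpperHalfPlane CongruenceSubgroup Matrix ModularForm ModularFormClass
open Fermat.Agent.S16lib.Op

/-- restriction of a level-one form to `Γ₀(p)` -/
def restrictGamma0 (p : ℕ) {k : ℤ} (f : ModularForm 𝒮ℒ k) : ModularForm (Gamma0 p) k where
  toFun := ⇑f
  slash_action_eq' γ hγ := f.slash_action_eq' γ (Subgroup.map_le_range _ _ hγ)
  holo' := f.holo'
  bdd_at_cusps' hc := f.bdd_at_cusps' (hc.mono (Subgroup.map_le_range _ _))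

@[simp] lemma coe_restrictGamma0 (p : ℕ) {k : ℤ} (f : ModularForm 𝒮ℒ k) :
    ⇑(restrictGamma0 p f) = ⇑f := rfl

/-- `W = S · diag(p,1)`. -/
lemma wMat_eq_S_mul_diag (p : ℕ) [NeZero p] :
    wMat p = Matrix.SpecialLinearGroup.mapGL ℝ ModularGroup.S * ModularForm.heckeDiagMatrix p := by
  apply Matrix.GeneralLinearGroup.ext
  intro i j
  simp only [Matrix.GeneralLinearGroup.coe_mul, val_wMat,
    ModularForm.val_heckeDiagMatrix (NeZero.ne p), mapGL_apply, ModularGroup.coe_S,
    Matrix.mul_apply, Fin.sum_univ_two]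
  fin_cases i <;> fin_cases j <;> simp

/-- `f∣W = f∣diag(p,1)` for `f` of level one. -/
lemma coe_wSlash_restrictGamma0 (p : ℕ) [NeZero p] {k : ℤ} (f : ModularForm 𝒮ℒ k) :
    ⇑(wSlash p (restrictGamma0 p f)) = ⇑f ∣[k] ModularForm.heckeDiagMatrix p := by
  rw [coe_wSlash, coe_restrictGamma0, wMat_eq_S_mul_diag, SlashAction.slash_mul]
  congr 1
  exact SlashInvariantFormClass.slash_action_eq f _ ⟨ModularGroup.S, rfl⟩


/-- `q`-expansion of `V = f∣W`: `a_n(V) = p^{k-1} a_{n/p}(f)` for `p ∣ n`, else `0`. -/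
theorem qCoeff_wSlash_restrictGamma0 (p : ℕ) [NeZero p] {k : ℤ} (f : ModularForm 𝒮ℒ k) (n : ℕ) :
    qCoeff ⇑(wSlash p (restrictGamma0 p f)) n =
      if p ∣ n then (p : ℂ) ^ (k - 1) * qCoeff ⇑f (n / p) else 0 := by
  have hp : p ≠ 0 := NeZero.ne p
  have : Fact (IsCusp OnePoint.infty (𝒮ℒ : Subgroup (GL (Fin 2) ℝ))) :=
    ⟨Subgroup.isCusp_of_mem_strictPeriods one_pos one_mem_strictPeriods_SL⟩
  have hsum : ∀ τ : ℍ, HasSum (fun m : ℕ =>
      (if p ∣ m then (p : ℂ) ^ (k - 1) * qCoeff ⇑f (m / p) else 0) •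
        Function.Periodic.qParam (1 : ℝ) τ ^ m) ((wSlash p (restrictGamma0 p f)) τ) := by
    intro τ
    rw [coe_wSlash_restrictGamma0, ModularForm.slash_heckeDiagMatrix_apply k hp]
    have h := P2MW.S_UpperHalfPlane_qCoeff_heckeT.M4cP1W2.hasSum_diag hp
      (SlashInvariantFormClass.periodic_comp_ofComplex f one_mem_strictPeriods_SL)
      (ModularFormClass.holo f) (ModularFormClass.bdd_at_infty f) k τ
    convert h using 2 with m
    split_ifs <;> simp
  exact (ModularFormClass.qExpansion_coeff_unique one_pos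
    (CongruenceSubgroup.one_mem_strictPeriods_Gamma0 p) hsum n).symm

end Fermat.Agent.S16lib.M2
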