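/-
S16lib / package M2 (lead): Serre's trace computation.  For `G ∈ M₂(Γ₀(p))` and a level-one form
`f` of weight `k`, put `g = f - p·V`, `V = f∣W = p^{k-1} f(pτ)`.  We compute the `q`-expansion of
`Tr(G·g) ∈ M_{2+k}(SL₂ℤ)` in terms of those of `G`, `G∣W`, `f`, `V`.
-/
import Fermat.Agent.S16lib.M2.Forms
import Fermat.Prelude.Thm_ModularFormClass_qCoeff_heckeU

set_option autoImplicit false

noncomputable section

namespace Fermat.Agent.S16lib.M2

open scoped MatrixGroups ModularForm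
open UpperHalfPlane CongruenceSubgroup Matrix ModularForm ModularFormClass
open Fermat.Agent.S16lib.Op

variable (p : ℕ) [Fact p.Prime]

lemma wSlash_neg' {k : ℤ} (f : ModularForm (Gamma0 p) k) : wSlash p (-f) = -wSlash p f := by
  have h := wSlash_smul p (-1 : ℂ) f
  simpa using h

lemma wSlash_sub' {k : ℤ} (f g : ModularForm (Gamma0 p) k) :
    wSlash p (f - g) = wSlash p f - wSlash p g := by
  rw [sub_eq_add_neg, wSlash_add, wSlash_neg', ← sub_eq_add_neg]

/-- Serre's auxiliary form `g = f - p · (f∣W)` on `Γ₀(p)`. -/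
def serreForm {k : ℤ} (f : ModularForm 𝒮ℒ k) : ModularForm (Gamma0 p) k :=
  restrictGamma0 p f - (p : ℂ) • wSlash p (restrictGamma0 p f)

/-- `g∣W = V - p (-p)^{k-2} f`. -/
lemma wSlash_serreForm {k : ℤ} (f : ModularForm 𝒮ℒ k) :
    wSlash p (serreForm p f) =
      wSlash p (restrictGamma0 p f) - ((p : ℂ) * (-(p : ℂ)) ^ (k - 2)) • restrictGamma0 p f := by
  rw [serreForm, wSlash_sub', wSlash_smul, wSlash_wSlash, smul_smul]

/-- `(G·g)∣W = p · (G∣W)·(g∣W)`. -/
lemma wSlash_mul {k₁ k₂ : ℤ} (G : ModularForm (Gamma0 p) k₁) (g : ModularForm (Gamma0 p) k₂) :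
    wSlash p (G.mul g) = (p : ℂ) • ((wSlash p G).mul (wSlash p g)) :=
  DFunLike.coe_injective <| by
    rw [coe_wSlash, ModularForm.coe_mul, ModularForm.mul_slash, det_wMat, FunLike.coe_smul,
      ModularForm.coe_mul, coe_wSlash, coe_wSlash]
    ext τ
    simp

omit [Fact p.Prime] in
lemma hΓ0 : (1 : ℝ) ∈ ((Gamma0 p : Subgroup (GL (Fin 2) ℝ))).strictPeriods :=
  CongruenceSubgroup.one_mem_strictPeriods_Gamma0 p

/-- coefficients of the trace: `a_n(Tr F) = a_n(F) + p^{2-k} a_{np}(F∣W)`. -/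
theorem qCoeff_trace {k : ℤ} (F : ModularForm (Gamma0 p) k) (n : ℕ) :
    qCoeff ⇑(ModularForm.trace 𝒮ℒ F) n =
      qCoeff ⇑F n + (p : ℂ) ^ (2 - k) * qCoeff ⇑(wSlash p F) (n * p) := by
  have hp : p ≠ 0 := (Fact.out : p.Prime).ne_zero
  have hcoe : ⇑(ModularForm.trace 𝒮ℒ F) =
      ⇑(F + ((p : ℂ) ^ (2 - k)) • ModularForm.heckeULin k (dvd_refl p) (wSlash p F)) := by
    rw [coe_trace_eq_add_heckeU, FunLike.coe_add, FunLike.coe_smul,
      ModularForm.coe_heckeULin_apply]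
  rw [qCoeff, hcoe, FunLike.coe_add, ModularForm.qExpansion_add one_pos (hΓ0 p),
    FunLike.coe_smul, ModularForm.qExpansion_smul one_pos (hΓ0 p), map_add, PowerSeries.coeff_smul,
    ModularForm.coe_heckeULin_apply]
  have h := ModularFormClass.qCoeff_heckeU (wSlash p F) (hΓ0 p) hp n
  rw [ModularForm.coeffHeckeU_apply] at h
  rw [qCoeff] at h
  rw [h, smul_eq_mul]
  rfl

variable {k : ℤ} (f : ModularForm 𝒮ℒ k) (G : ModularForm (Gamma0 p) 2)

/-- `q`-expansion of `g`. -/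
lemma qExpansion_serreForm :
    qExpansion 1 ⇑(serreForm p f) =
      qExpansion 1 ⇑f - (p : ℂ) • qExpansion 1 ⇑(wSlash p (restrictGamma0 p f)) := by
  rw [serreForm, FunLike.coe_sub, ModularForm.qExpansion_sub one_pos (hΓ0 p),
    FunLike.coe_smul, ModularForm.qExpansion_smul one_pos (hΓ0 p), coe_restrictGamma0]

/-- `q`-expansion of `g∣W`. -/
lemma qExpansion_wSlash_serreForm :
    qExpansion 1 ⇑(wSlash p (serreForm p f)) =
      qExpansion 1 ⇑(wSlash p (restrictGamma0 p f)) -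
        ((p : ℂ) * (-(p : ℂ)) ^ (k - 2)) • qExpansion 1 ⇑f := by
  rw [wSlash_serreForm, FunLike.coe_sub, ModularForm.qExpansion_sub one_pos (hΓ0 p),
    FunLike.coe_smul, ModularForm.qExpansion_smul one_pos (hΓ0 p), coe_restrictGamma0]

/-- **Serre's trace formula** on `q`-expansions. -/
theorem qCoeff_trace_mul_serreForm (n : ℕ) :
    qCoeff ⇑(ModularForm.trace 𝒮ℒ (G.mul (serreForm p f))) n =
      (qExpansion 1 ⇑G * (qExpansion 1 ⇑f -
          (p : ℂ) • qExpansion 1 ⇑(wSlash p (restrictGamma0 p f)))).coeff n +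
        (p : ℂ) ^ (2 - (2 + k)) * ((p : ℂ) * (qExpansion 1 ⇑(wSlash p G) *
          (qExpansion 1 ⇑(wSlash p (restrictGamma0 p f)) -
            ((p : ℂ) * (-(p : ℂ)) ^ (k - 2)) • qExpansion 1 ⇑f)).coeff (n * p)) := by
  rw [qCoeff_trace, wSlash_mul, qCoeff, qCoeff, ModularForm.qExpansion_mul one_pos (hΓ0 p),
    FunLike.coe_smul, ModularForm.qExpansion_smul one_pos (hΓ0 p),
    ModularForm.qExpansion_mul one_pos (hΓ0 p),
    qExpansion_serreForm, qExpansion_wSlash_serreForm, PowerSeries.coeff_smul, smul_eq_mul]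

end Fermat.Agent.S16lib.M2
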