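/-
S16lib / package M2 (lead): **MT2** — for a prime `p ≥ 5` there is no `G ∈ M₂(Γ₀(p))` with integer
`q`-expansion, constant term prime to `p` and all higher coefficients divisible by `p`.
(Serre's trace argument: `Tr(G·g) ∈ M_{p+1}(SL₂ℤ)` is `≡ c mod p`, contradicting Swinnerton-Dyer.)
-/
import Fermat.Agent.S16lib.M2.Trace
import Fermat.Agent.S16lib.M1Ring
import Fermat.Agent.S16lib.SwDBridge.SwDConst

set_option autoImplicit false

noncomputable section

namespace Fermat.Agent.S16lib.M2

open scoped MatrixGroups ModularForm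
open UpperHalfPlane CongruenceSubgroup Matrix ModularForm ModularFormClass
open Fermat.Agent.S16lib.Op Fermat.Agent.S16lib.M1 Fermat.Agent.S16lib.SwDBridge

/-- the formal `U_p` operator on power series -/
def upSeries {R : Type*} [Semiring R] (p : ℕ) (P : PowerSeries R) : PowerSeries R :=
  PowerSeries.mk fun n => PowerSeries.coeff (n * p) P

/-- the formal `V_p` operator on power series -/
def vpSeries {R : Type*} [Semiring R] (p : ℕ) (P : PowerSeries R) : PowerSeries R :=
  PowerSeries.mk fun n => if p ∣ n then PowerSeries.coeff (n / p) P else 0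

lemma map_upSeries {R S : Type*} [Semiring R] [Semiring S] (φ : R →+* S) (p : ℕ)
    (P : PowerSeries R) : (upSeries p P).map φ = upSeries p (P.map φ) := by
  ext n
  simp [upSeries]

lemma map_vpSeries {R S : Type*} [Semiring R] [Semiring S] (φ : R →+* S) (p : ℕ)
    (P : PowerSeries R) : (vpSeries p P).map φ = vpSeries p (P.map φ) := by
  ext n
  simp only [vpSeries, PowerSeries.coeff_map, PowerSeries.coeff_mk]
  split_ifs <;> simp

lemma upSeries_zero {R : Type*} [Semiring R] (p : ℕ) : upSeries p (0 : PowerSeries R) = 0 := by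
  ext n
  simp [upSeries]

lemma vpSeries_one {R : Type*} [Semiring R] (p : ℕ) (hp : 2 ≤ p) :
    vpSeries p (1 : PowerSeries R) = 1 := by
  ext n
  simp only [vpSeries, PowerSeries.coeff_mk, PowerSeries.coeff_one]
  rcases Nat.eq_zero_or_pos n with rfl | hn
  · simp
  · rw [if_neg hn.ne']
    split_ifs with h1 h2
    · exfalso
      obtain ⟨m, rfl⟩ := h1
      rw [Nat.mul_div_cancel_left m (by omega)] at h2
      subst h2
      simp at hn
    · rfl
    · rfl

variable (p : ℕ) [hpf : Fact p.Prime]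

/-- **MT2**: Serre's trace argument (`ℓ = p ≥ 5`). -/
theorem mt2 (hp5 : 5 ≤ p) (G : ModularForm (Gamma0 p) 2)
    (hint : ∀ k, ∃ m : ℤ, qCoeff G k = (m : ℂ))
    (h0 : ∀ m : ℤ, qCoeff G 0 = (m : ℂ) → ¬ (p : ℤ) ∣ m)
    (hk : ∀ k, 1 ≤ k → ∃ m : ℤ, qCoeff G k = ((p : ℂ) ^ 1) * (m : ℂ)) : False := by
  have hpp : p.Prime := hpf.out
  have hp0 : (p : ℂ) ≠ 0 := Nat.cast_ne_zero.mpr hpp.ne_zero
  have hk3 : 3 ≤ p - 1 := by omega
  set A : Subring ℂ := ellIntegers p with hAdef
  have hA : ∀ n : ℕ, ¬ p ∣ n → ((n : ℂ))⁻¹ ∈ A := fun n hn => inv_natCast_mem_ellIntegers p hn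
  set red : A →+* ellResidue p := ellRed p with hred
  have hredp : red ((p : ℕ) : A) = 0 := by
    rw [hred, map_natCast]
    exact CharP.cast_eq_zero _ p
  -- integer coefficients of `G`
  choose mG hmG using hint
  have hmG0 : ¬ (p : ℤ) ∣ mG 0 := h0 (mG 0) (hmG 0)
  have hmGk : ∀ n, 1 ≤ n → (p : ℤ) ∣ mG n := by
    intro n hn
    obtain ⟨m, hm⟩ := hk n hn
    rw [hmG n, pow_one] at hm
    refine ⟨m, ?_⟩
    exact_mod_cast hm
  -- the series over `A`
  obtain ⟨aE, haE, haE0, haEn⟩ := exists_hasse_series A hpp hp5 hA hk3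
  set aG : PowerSeries A := PowerSeries.mk fun n => ((mG n : ℤ) : A) with haG
  set aH : PowerSeries A := PowerSeries.mk fun n => -((mG (n * p) : ℤ) : A) with haH
  set aEp : PowerSeries A := vpSeries p aE with haEp
  set aT : PowerSeries A :=
    aG * (aE - PowerSeries.C (((p : ℕ) : A) ^ (p - 1)) * aEp) + upSeries p (aH * (aEp - aE))
    with haT
  set E : ModularForm 𝒮ℒ ((p - 1 : ℕ) : ℤ) := ModularForm.E hk3 with hE
  set T : ModularForm 𝒮ℒ (2 + ((p - 1 : ℕ) : ℤ)) :=
    ModularForm.trace 𝒮ℒ (G.mul (serreForm p E)) with hT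
  -- identification of the complex `q`-expansions
  have hqG : qExpansion 1 ⇑G = aG.map A.subtype := by
    ext n
    rw [PowerSeries.coeff_map, haG, PowerSeries.coeff_mk]
    exact hmG n
  have hqH : qExpansion 1 ⇑(wSlash p G) = aH.map A.subtype := by
    ext n
    rw [PowerSeries.coeff_map, haH, PowerSeries.coeff_mk]
    have := qCoeff_wSlash p G n
    rw [qCoeff] at this
    rw [this, hmG (n * p)]
    simp
  have hqV : qExpansion 1 ⇑(wSlash p (restrictGamma0 p E)) =
      ((p : ℂ) ^ (p - 2)) • (aEp.map A.subtype) := by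
    ext n
    have := qCoeff_wSlash_restrictGamma0 p E n
    rw [qCoeff] at this
    rw [this, PowerSeries.coeff_smul, haEp, map_vpSeries, haE, vpSeries, PowerSeries.coeff_mk]
    have hexp : (((p - 1 : ℕ) : ℤ) - 1) = ((p - 2 : ℕ) : ℤ) := by omega
    rw [hexp, zpow_natCast]
    split_ifs
    · rfl
    · simp
  -- the constants
  have hc2 : (p : ℂ) * (-(p : ℂ)) ^ (((p - 1 : ℕ) : ℤ) - 2) = (p : ℂ) ^ (p - 2) := by
    have hexp : (((p - 1 : ℕ) : ℤ) - 2) = ((p - 3 : ℕ) : ℤ) := by omega
    have hodd : Odd p := hpp.odd_of_ne_two (by omega)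
    have heven : Even (p - 3) := by
      obtain ⟨j, hj⟩ := hodd
      exact ⟨j - 1, by omega⟩
    rw [hexp, zpow_natCast, heven.neg_pow, ← pow_succ']
    congr 1
    omega
  have hc1 : (p : ℂ) ^ (2 - (2 + ((p - 1 : ℕ) : ℤ))) * ((p : ℂ) * (p : ℂ) ^ (p - 2)) = 1 := by
    have hexp : (2 - (2 + ((p - 1 : ℕ) : ℤ))) = -((p - 1 : ℕ) : ℤ) := by ring
    rw [hexp, _root_.zpow_neg, zpow_natCast, ← pow_succ']
    have : p - 2 + 1 = p - 1 := by omega
    rw [this]
    exact inv_mul_cancel₀ (pow_ne_zero _ hp0)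
  -- Step 1: `aT` lifts the `q`-expansion of the trace
  have hstep1 : aT.map A.subtype = qExpansion 1 ⇑T := by
    ext n
    have h := qCoeff_trace_mul_serreForm p E G n
    rw [qCoeff] at h
    rw [hT, h, hqG, hqH, hqV, hc2, ← haE]
    rw [haT, map_add, map_mul, map_sub, map_mul, PowerSeries.map_C, map_upSeries, map_mul, map_sub,
      map_add]
    congr 1
    · congr 2
      rw [smul_smul, ← pow_succ']
      have : p - 2 + 1 = p - 1 := by omega
      rw [this, PowerSeries.smul_eq_C_mul]
      simp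
    · rw [← smul_sub, mul_smul_comm, PowerSeries.coeff_smul, upSeries, PowerSeries.coeff_mk]
      set X := (PowerSeries.coeff (n * p))
        ((PowerSeries.map A.subtype) aH *
          ((PowerSeries.map A.subtype) aEp - (PowerSeries.map A.subtype) aE)) with hX
      have : (p : ℂ) ^ (2 - (2 + ((p - 1 : ℕ) : ℤ))) * ((p : ℂ) * ((p : ℂ) ^ (p - 2) * X)) =
          ((p : ℂ) ^ (2 - (2 + ((p - 1 : ℕ) : ℤ))) * ((p : ℂ) * (p : ℂ) ^ (p - 2))) * X := by ring
      rw [smul_eq_mul, this, hc1, one_mul]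
  -- Step 2: reduction of `aT`
  have hredG : aG.map red = PowerSeries.C (red ((mG 0 : ℤ) : A)) := by
    ext n
    rw [PowerSeries.coeff_map, haG, PowerSeries.coeff_mk, PowerSeries.coeff_C]
    split_ifs with hn
    · rw [hn]
    · obtain ⟨m, hm⟩ := hmGk n (by omega)
      rw [hm]
      push_cast
      rw [map_mul]
      have : red ((p : ℤ) : A) = 0 := by
        have := hredp
        simp only [Int.cast_natCast]
        exact this
      simp only [Int.cast_natCast] at this ⊢
      rw [this, zero_mul]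
  have hredE : aE.map red = 1 := by
    ext n
    rw [PowerSeries.coeff_map, PowerSeries.coeff_one]
    split_ifs with hn
    · rw [hn, haE0, map_one]
    · obtain ⟨y, hy⟩ := haEn n (by omega)
      rw [hy, map_mul]
      have : red ((p : A)) = 0 := hredp
      rw [this, zero_mul]
  have hredEp : aEp.map red = 1 := by
    rw [haEp, map_vpSeries, hredE, vpSeries_one p (by omega)]
  have hredT : aT.map red = PowerSeries.C (red ((mG 0 : ℤ) : A)) := by
    rw [haT, map_add, map_mul, map_sub, map_mul, PowerSeries.map_C, map_upSeries, map_mul, map_sub,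
      hredG, hredE, hredEp, sub_self, mul_zero, upSeries_zero, add_zero, map_pow, hredp,
      zero_pow (by omega), map_zero, zero_mul, sub_zero, mul_one]
  -- Step 3: Swinnerton-Dyer
  have hdvd := swd_const (ℓ := p) hp5 A hA red T aT hstep1 ?_ ?_
  · have h1 : ((p : ℤ) - 1) ∣ 2 := by
      have hcast : (((p - 1 : ℕ) : ℤ)) = (p : ℤ) - 1 := by omega
      rw [hcast] at hdvd
      exact (dvd_add_left (dvd_refl _)).mp hdvd
    have := Int.le_of_dvd (by norm_num) h1
    omega
  · have : red (PowerSeries.coeff 0 aT) = PowerSeries.coeff 0 (aT.map red) := by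
      rw [PowerSeries.coeff_map]
    rw [this, hredT, PowerSeries.coeff_C, if_pos rfl]
    exact ellRed_intCast_ne_zero p hmG0
  · intro n hn
    have : red (PowerSeries.coeff n aT) = PowerSeries.coeff n (aT.map red) := by
      rw [PowerSeries.coeff_map]
    rw [this, hredT, PowerSeries.coeff_C, if_neg (by omega)]

end Fermat.Agent.S16lib.M2
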